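import Fermat.Agent.CFT.Local.Units
import Fermat.Agent.CFT.Idele.Carry

/-!
# Restriction between normal subfields, and the carry cocycle of a norm
-/

set_option autoImplicit false
set_option linter.style.haveILetI false
set_option linter.unusedSectionVars false

noncomputable section

namespace Fermat.Agent.CFT.LocalClass

open groupCohomology Fermat.Agent.CFT Fermat.Agent.CFT.Local Fermat.Agent.CFT.Idele

section Restr

variable {k Ω : Type*} [Field k] [Field Ω] [Algebra k Ω] {E E' : IntermediateField k Ω}
  [Normal k E] [Normal k E'] (h : E ≤ E')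

/-- Restriction to a smaller normal subfield. -/
def restrHom : (E' ≃ₐ[k] E') →* (E ≃ₐ[k] E) :=
  letI : Algebra E E' := (IntermediateField.inclusion h).toRingHom.toAlgebra
  haveI : IsScalarTower k E E' := IsScalarTower.of_algebraMap_eq fun _ => rfl
  AlgEquiv.restrictNormalHom E

theorem inclusion_restrHom (σ : E' ≃ₐ[k] E') (x : E) :
    IntermediateField.inclusion h (restrHom h σ x) = σ (IntermediateField.inclusion h x) := by
  letI : Algebra E E' := (IntermediateField.inclusion h).toRingHom.toAlgebra
  haveI : IsScalarTower k E E' := IsScalarTower.of_algebraMap_eq fun _ => rfl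
  exact AlgEquiv.restrictNormal_commutes σ E x

theorem restrHom_surjective : Function.Surjective (restrHom h) := by
  letI : Algebra E E' := (IntermediateField.inclusion h).toRingHom.toAlgebra
  haveI : IsScalarTower k E E' := IsScalarTower.of_algebraMap_eq fun _ => rfl
  exact AlgEquiv.restrictNormalHom_surjective E'

/-- The inclusion of units. -/
def unitsMap : Additive Eˣ →+ Additive E'ˣ :=
  MonoidHom.toAdditive (Units.map (IntermediateField.inclusion h).toRingHom.toMonoidHom)

theorem unitsMap_injective : Function.Injective (unitsMap h) := fun _ _ e =>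
  Additive.toMul.injective (Units.ext ((IntermediateField.inclusion h).injective
    (congrArg (fun z : Additive E'ˣ => ((z.toMul : E'ˣ) : E')) e)))

theorem smul_unitsMap (σ : E' ≃ₐ[k] E') (x : Additive Eˣ) :
    σ • unitsMap h x = unitsMap h (restrHom h σ • x) :=
  Additive.toMul.injective (Units.ext (inclusion_restrHom h σ ((x.toMul : Eˣ) : E)).symm)

theorem exists_unitsMap_eq [FiniteDimensional k E'] [IsGalois k E'] (x : Additive E'ˣ)
    (hx : ∀ n : (restrHom h).ker, (n : E' ≃ₐ[k] E') • x = x) : ∃ y, unitsMap h y = x := by
  letI : Algebra E E' := (IntermediateField.inclusion h).toRingHom.toAlgebra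
  haveI : IsScalarTower k E E' := IsScalarTower.of_algebraMap_eq fun _ => rfl
  haveI : FiniteDimensional E E' := FiniteDimensional.right k E E'
  haveI : IsGalois E E' := IsGalois.tower_top_of_isGalois k E E'
  obtain ⟨y, hy⟩ := (IsGalois.mem_range_algebraMap_iff_fixed (F := E)
    ((x.toMul : E'ˣ) : E')).mpr fun τ => by
    have hτ : τ.restrictScalars k ∈ (restrHom h).ker := by
      rw [MonoidHom.mem_ker]
      refine AlgEquiv.ext fun z => (IntermediateField.inclusion h).injective ?_
      show IntermediateField.inclusion h (restrHom h (τ.restrictScalars k) z) =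
        IntermediateField.inclusion h z
      rw [inclusion_restrHom]
      exact τ.commutes z
    exact congrArg (fun z : Additive E'ˣ => ((z.toMul : E'ˣ) : E')) (hx ⟨_, hτ⟩)
  have hy0 : y ≠ 0 := fun h0 => (x.toMul : E'ˣ).ne_zero (by rw [← hy, h0, map_zero])
  exact ⟨Additive.ofMul (Units.mk0 y hy0), Additive.toMul.injective (Units.ext hy)⟩

end Restr

section Carry

variable {G A : Type*} [Group G] [AddCommGroup A] [DistribMulAction G A] {n : ℕ} [NeZero n]
  {χ : G →* Multiplicative (ZMod n)}

/-- The carry cocycle of a norm from a subgroup on which the character is injective. -/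
theorem isCoboundary₂_carryN_normSum {N : Subgroup G} [Fintype N] (_hN : N ⊓ χ.ker = ⊥) (y : A) :
    IsCoboundary₂ fun x : N × N => carryN χ (normSum N A y) ((x.1 : G), (x.2 : G)) := by
  classical
  let v : N → ℕ := fun h => chiVal χ (h : G)
  let S : ℕ → A := fun m => ∑ w : N, (if v w < m then 1 else 0 : ℕ) • ((w : G) • y)
  refine ⟨fun h => S (v h), fun a b => ?_⟩
  have hva : v a < n := chiVal_lt χ _
  have hvb : v b < n := chiVal_lt χ _
  have hsm : a • S (v b) =
      ∑ w : N, (if (v w + n - v a) % n < v b then 1 else 0 : ℕ) • ((w : G) • y) := by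
    simp only [S, Finset.smul_sum, Subgroup.smul_def, smul_comm (a : G), smul_smul]
    refine Fintype.sum_equiv (Equiv.mulLeft a) _ _ fun w => ?_
    have e : (v (a * w) + n - v a) % n = v w := by
      have hw : v w < n := chiVal_lt χ _
      have h1 : v (a * w) = (v a + v w) % n := chiVal_mul χ _ _
      rcases Nat.lt_or_ge (v a + v w) n with hlt | hge
      · rw [h1, Nat.mod_eq_of_lt hlt, show v a + v w + n - v a = v w + n by omega,
          Nat.add_mod_right, Nat.mod_eq_of_lt hw]
      · rw [h1, Nat.mod_eq_sub_mod hge, Nat.mod_eq_of_lt (show v a + v w - n < n by omega),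
          show v a + v w - n + n - v a = v w by omega, Nat.mod_eq_of_lt hw]
    show _ = (if (v (a * w) + n - v a) % n < v b then 1 else 0 : ℕ) • (((a * w : N) : G) • y)
    rw [e, Subgroup.coe_mul]
  show a • S (v b) - S (v (a * b)) + S (v a) = ((v a + v b) / n) • normSum N A y
  rw [hsm, show v (a * b) = (v a + v b) % n from chiVal_mul χ _ _]
  simp only [S, normSum, Subgroup.smul_def, Finset.smul_sum, ← Finset.sum_sub_distrib,
    ← Finset.sum_add_distrib]
  refine Finset.sum_congr rfl fun w _ => ?_
  have hw : v w < n := chiVal_lt χ _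
  have key : (if (v w + n - v a) % n < v b then 1 else 0 : ℕ) + (if v w < v a then 1 else 0) =
      (if v w < (v a + v b) % n then 1 else 0) + (v a + v b) / n := by
    rcases Nat.lt_or_ge (v a + v b) n with hab | hab
    · rw [Nat.mod_eq_of_lt hab, Nat.div_eq_of_lt hab]
      rcases Nat.lt_or_ge (v w) (v a) with h | h
      · rw [Nat.mod_eq_of_lt (show v w + n - v a < n by omega)]
        split_ifs <;> omega
      · rw [Nat.mod_eq_sub_mod (show n ≤ v w + n - v a by omega),
          Nat.mod_eq_of_lt (show v w + n - v a - n < n by omega)]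
        split_ifs <;> omega
    · rw [Nat.mod_eq_sub_mod hab, Nat.mod_eq_of_lt (show v a + v b - n < n by omega),
        Nat.div_eq_of_lt_le (show 1 * n ≤ v a + v b by omega) (show v a + v b < (1 + 1) * n by omega)]
      rcases Nat.lt_or_ge (v w) (v a) with h | h
      · rw [Nat.mod_eq_of_lt (show v w + n - v a < n by omega)]
        split_ifs <;> omega
      · rw [Nat.mod_eq_sub_mod (show n ≤ v w + n - v a by omega),
          Nat.mod_eq_of_lt (show v w + n - v a - n < n by omega)]
        split_ifs <;> omega
  rw [sub_add_eq_add_sub, sub_eq_iff_eq_add, ← add_smul, ← add_smul, key, add_comm]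

end Carry

end Fermat.Agent.CFT.LocalClass
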