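import Fermat.Agent.CFT.Local.Unramified
import Mathlib.RingTheory.RootsOfUnity.AlgebraicallyClosed
import Mathlib.FieldTheory.Finite.Basic

/-!
# The unramified extension of degree `n` of `ℚ_q`

For a primitive `(q ^ n - 1)`-st root of unity `ζ`, the field `ℚ_q(ζ)` is normal, unramified,
cyclic of degree `n`; over a normal `E` its compositum with `E` has a character onto `ℤ/n` whose
kernel fixes `ζ` and contains inertia.
-/

set_option autoImplicit false
set_option linter.style.haveILetI false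

noncomputable section

namespace Fermat.Agent.CFT.LocalClass

open Fermat.Agent.CFT.Local Module

variable {q : ℕ} [Fact q.Prime]

theorem norm_root_one {M : ℕ} (hM : M ≠ 0) {ζ : PadicAlgCl q} (hζ : ζ ^ M = 1) : ‖ζ‖ = 1 := by
  refine (pow_eq_one_iff_of_nonneg (norm_nonneg ζ) hM).mp ?_
  rw [← norm_pow, hζ, norm_one]

/-- Roots of unity of order prime to `q` are determined by their residues. -/
theorem eq_of_norm_sub_lt_one {M : ℕ} (hM : M ≠ 0) (hqM : ¬ q ∣ M) {x y : PadicAlgCl q}
    (hx : x ^ M = 1) (hy : y ^ M = 1) (h : ‖x - y‖ < 1) : x = y := by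
  have hy1 : ‖y‖ = 1 := norm_root_one hM hy
  have hy0 : y ≠ 0 := fun e => by rw [e, norm_zero] at hy1; exact zero_ne_one hy1
  set u := x / y with hu
  have hu1 : ‖u - 1‖ < 1 := by
    rw [hu, div_sub_one hy0, norm_div, hy1, div_one]
    exact h
  have huM : u ^ M = 1 := by rw [hu, div_pow, hx, hy, div_one]
  by_contra hne
  have hne' : u ≠ 1 := fun e => hne ((div_eq_one_iff_eq hy0).mp e)
  have hsum : ∑ i ∈ Finset.range M, u ^ i = 0 := by
    have := geom_sum_mul u M
    rw [huM, sub_self, mul_eq_zero] at this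
    exact this.resolve_right (sub_ne_zero.mpr hne')
  have hu0 : ‖u‖ ≤ 1 := (norm_root_one hM huM).le
  have hpow : ∀ i : ℕ, ‖u ^ i - 1‖ < 1 := fun i => by
    induction i with
    | zero => simp
    | succ i ih =>
      rw [show u ^ (i + 1) - 1 = u ^ i * (u - 1) + (u ^ i - 1) by ring]
      refine (IsUltrametricDist.norm_add_le_max _ _).trans_lt (max_lt ?_ ih)
      rw [norm_mul, norm_pow]
      exact (mul_le_of_le_one_left (norm_nonneg _) (pow_le_one₀ (norm_nonneg _) hu0)).trans_lt hu1
  have hlt : ‖(M : PadicAlgCl q)‖ < 1 := by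
    have e : (M : PadicAlgCl q) = -∑ i ∈ Finset.range M, (u ^ i - 1) := by
      rw [Finset.sum_sub_distrib, hsum, Finset.sum_const, Finset.card_range, nsmul_one, zero_sub,
        neg_neg]
    rw [e, norm_neg]
    obtain ⟨i, -, hi⟩ := IsUltrametricDist.exists_norm_finsetSum_le_of_nonempty
      (Finset.nonempty_range_iff.mpr hM) fun i : ℕ => u ^ i - 1
    exact hi.trans_lt (hpow i)
  rw [← map_natCast (algebraMap ℚ_[q] (PadicAlgCl q)) M, norm_algebraMap',
    Padic.norm_natCast_lt_one_iff] at hlt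
  exact hqM hlt

/-- A natural number `q ^ n - 1` is prime to `q`. -/
theorem not_dvd_pow_sub_one {n : ℕ} (hn : 0 < n) : ¬ q ∣ q ^ n - 1 := fun h => by
  have h1 : q ∣ q ^ n := dvd_pow_self q hn.ne'
  have h2 : 1 ≤ q ^ n := Nat.one_le_pow n q (Fact.out : q.Prime).pos
  have h3 := Nat.dvd_sub h1 h
  rw [show q ^ n - (q ^ n - 1) = 1 by omega] at h3
  exact (Fact.out : q.Prime).ne_one (Nat.dvd_one.mp h3)

/-- The field generated by a root of unity is normal. -/
theorem normal_adjoin_root {M : ℕ} [NeZero M] {ζ : PadicAlgCl q} (hζ : IsPrimitiveRoot ζ M) :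
    Normal ℚ_[q] (IntermediateField.adjoin ℚ_[q] ({ζ} : Set (PadicAlgCl q))) := by
  refine IntermediateField.normal_iff_forall_map_le'.mpr fun τ => ?_
  rw [IntermediateField.adjoin_map, IntermediateField.adjoin_le_iff]
  rintro _ ⟨x, hx, rfl⟩
  rw [Set.mem_singleton_iff] at hx
  subst hx
  have h : (τ x) ^ M = 1 := by rw [← map_pow, hζ.pow_eq_one, map_one]
  obtain ⟨i, -, hi⟩ := hζ.eq_pow_of_pow_eq_one h
  show τ x ∈ IntermediateField.adjoin ℚ_[q] ({x} : Set (PadicAlgCl q))
  rw [← hi]
  exact pow_mem (IntermediateField.subset_adjoin _ _ (Set.mem_singleton x)) i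

variable {E : IntermediateField ℚ_[q] (PadicAlgCl q)} [FiniteDimensional ℚ_[q] E]

theorem card_resField_aut : Nat.card (ResField E ≃ₐ[ZMod q] ResField E) = resDeg E := by
  haveI : IsGalois (ZMod q) (ResField E) := inferInstance
  rw [IsGalois.card_aut_eq_finrank]
  refine Nat.pow_right_injective (Fact.out : q.Prime).two_le ?_
  show q ^ _ = q ^ _
  rw [← card_resField, Module.natCard_eq_pow_finrank (K := ZMod q), Nat.card_zmod]

/-- The unramified extension of degree `n` is cyclic of order `n`. -/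
theorem exists_mulEquiv_gal_adjoin_root {n : ℕ} (hn : 0 < n) {ζ : PadicAlgCl q}
    (hζ : IsPrimitiveRoot ζ (q ^ n - 1)) {U : IntermediateField ℚ_[q] (PadicAlgCl q)}
    (hU : U = IntermediateField.adjoin ℚ_[q] ({ζ} : Set (PadicAlgCl q)))
    [FiniteDimensional ℚ_[q] U] [Normal ℚ_[q] U] :
    Nonempty ((U ≃ₐ[ℚ_[q]] U) ≃* Multiplicative (ZMod n)) := by
  classical
  have hq1 : 1 < q := (Fact.out : q.Prime).one_lt
  set M := q ^ n - 1 with hM
  have hM0 : M ≠ 0 := by have := Nat.one_lt_pow hn.ne' hq1; omega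
  haveI : NeZero M := ⟨hM0⟩
  have hqM : ¬ q ∣ M := not_dvd_pow_sub_one hn
  have hζU : ζ ∈ U := hU ▸ IntermediateField.subset_adjoin _ _ (Set.mem_singleton ζ)
  set z : U := ⟨ζ, hζU⟩
  have hext : ∀ σ : U ≃ₐ[ℚ_[q]] U, σ z = z → σ = 1 := fun σ hσ => by
    refine AlgEquiv.ext fun x => ?_
    have hle : U ≤ IntermediateField.lift (IntermediateField.fixedField (Subgroup.zpowers σ)) := by
      conv_lhs => rw [hU]
      refine IntermediateField.adjoin_le_iff.mpr fun y hy => ?_
      rw [Set.mem_singleton_iff.mp hy]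
      refine (IntermediateField.mem_lift z).mpr ((IntermediateField.mem_fixedField_iff _ z).mpr
        fun g hg => ?_)
      exact MulAction.mem_stabilizer_iff.mp
        (Subgroup.zpowers_le.mpr (MulAction.mem_stabilizer_iff.mpr hσ) hg)
    have hx := (IntermediateField.mem_lift x).mp (hle x.2)
    rw [IntermediateField.mem_fixedField_iff] at hx
    exact hx σ (Subgroup.mem_zpowers σ)
  have hroot : ∀ σ : U ≃ₐ[ℚ_[q]] U, ((σ z : U) : PadicAlgCl q) ^ M = 1 := fun σ => by
    have h1 : σ z ^ M = 1 := by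
      rw [← map_pow, show z ^ M = 1 from Subtype.ext hζ.pow_eq_one, map_one]
    exact congrArg Subtype.val h1
  have hzI : z ∈ intRing U := (norm_root_one hM0 hζ.pow_eq_one).le
  set c : ResField U := resMap U ⟨z, hzI⟩
  have hfix : ∀ σ : U ≃ₐ[ℚ_[q]] U, resAut U σ c = c → σ = 1 := fun σ h => by
    rw [resAut_resMap, resMap_eq_iff, coe_galInt] at h
    exact hext σ (Subtype.ext (eq_of_norm_sub_lt_one hM0 hqM (hroot σ) hζ.pow_eq_one h))
  have hinj : Function.Injective (resAut U) := (injective_iff_map_eq_one _).mpr fun σ hσ =>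
    hfix σ (by rw [hσ, AlgEquiv.one_apply])
  haveI : IsCyclic (U ≃ₐ[ℚ_[q]] U) := isCyclic_of_injective _ hinj
  haveI : IsGalois ℚ_[q] U := ⟨⟩
  have hd : Nat.card (U ≃ₐ[ℚ_[q]] U) = finrank ℚ_[q] U := IsGalois.card_aut_eq_finrank _ _
  have hnf : n ∣ resDeg U := by
    set m := q ^ resDeg U - 1
    have hcm : c ^ m = 1 := by
      haveI : Fintype (ResField U) := Fintype.ofFinite _
      have hc0 : c ≠ 0 := fun h0 => by
        have := (resMap_eq_zero_iff U).mp h0
        exact this.ne (norm_root_one hM0 hζ.pow_eq_one)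
      have := FiniteField.pow_card_sub_one_eq_one c hc0
      rwa [← Nat.card_eq_fintype_card, card_resField] at this
    have hzm : ζ ^ m = 1 := by
      rw [← map_pow, ← map_one (resMap U), resMap_eq_iff] at hcm
      exact eq_of_norm_sub_lt_one hM0 hqM
        (by rw [← pow_mul, mul_comm, pow_mul, hζ.pow_eq_one, one_pow]) (one_pow M) hcm
    have hdvd : q ^ n - 1 ∣ q ^ resDeg U - 1 := hζ.dvd_of_pow_eq_one m hzm
    have h1 := Nat.gcd_eq_left hdvd
    rw [Nat.pow_sub_one_gcd_pow_sub_one] at h1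
    have h2 : q ^ Nat.gcd n (resDeg U) = q ^ n := by
      have := Nat.one_le_pow (Nat.gcd n (resDeg U)) q (by omega)
      have := Nat.one_le_pow n q (by omega)
      omega
    exact Nat.gcd_eq_left_iff_dvd.mp (Nat.pow_right_injective hq1 h2)
  have hdn : finrank ℚ_[q] U ∣ n := by
    rw [← hd, ← IsCyclic.exponent_eq_card]
    refine Monoid.exponent_dvd_of_forall_pow_eq_one fun σ => hfix _ ?_
    haveI : Fintype (ResField U) := Fintype.ofFinite _
    obtain ⟨i, hi⟩ := (FiniteField.bijective_frobeniusAlgEquivOfAlgebraic_pow (ZMod q) (ResField U)).2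
      (resAut U σ)
    rw [map_pow, ← hi, ← pow_mul, AlgEquiv.coe_pow, FiniteField.coe_frobeniusAlgEquivOfAlgebraic_iterate,
      ZMod.card]
    have hc : c ^ q ^ n = c := by
      have h1 : c ^ M = 1 := by
        rw [← map_pow, ← map_one (resMap U), resMap_eq_iff]
        simp [show z ^ M = 1 from Subtype.ext hζ.pow_eq_one]
      rw [show q ^ n = M + 1 by have := Nat.one_le_pow n q (by omega); omega, pow_succ, h1, one_mul]
    rw [mul_comm, pow_mul]
    clear hi
    show c ^ (q ^ n) ^ (i : ℕ) = c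
    induction (i : ℕ) with
    | zero => simp
    | succ j ih => rw [pow_succ, pow_mul, ih, hc]
  have hcard : Nat.card (U ≃ₐ[ℚ_[q]] U) = n := by
    rw [hd]
    exact Nat.dvd_antisymm hdn (hnf.trans (resDeg_dvd_finrank U))
  refine ⟨mulEquivOfCyclicCardEq ?_⟩
  rw [hcard, Nat.card_congr Multiplicative.toAdd, Nat.card_zmod]

end Fermat.Agent.CFT.LocalClass
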