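import Fermat.Agent.CFT.LocalClass.Steps
import Fermat.Agent.CFT.LocalClass.Unram
import Fermat.Agent.CFT.LocalClass.Restr
import Fermat.Agent.CFT.Coh.Transfer

/-!
# The fundamental class of a local field

The carry cocycle of `q` for the unramified character of degree `n = [E : ℚ_q]` on the compositum
is trivial over `E`, hence descends; its class has full order at every Sylow subgroup.
-/

set_option autoImplicit false
set_option linter.unusedSectionVars false
set_option linter.style.haveILetI false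

noncomputable section

namespace Fermat.Agent.CFT.LocalClass

open groupCohomology Module Fermat.Agent.CFT Fermat.Agent.CFT.Local Fermat.Agent.CFT.Idele

variable {q : ℕ} [Fact q.Prime] {E : IntermediateField ℚ_[q] (PadicAlgCl q)}
  [FiniteDimensional ℚ_[q] E] [Normal ℚ_[q] E]

/-- The valuation of `q` divides the order of inertia. -/
theorem ordZ_natCast_dvd_card_inertia (x : Eˣ) (hx : (x : E) = (q : E)) :
    ordZ E x ∣ (Nat.card (inertia E) : ℤ) := by
  haveI : IsGalois ℚ_[q] E := ⟨⟩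
  have h1 : ordQFun E x = (finrank ℚ_[q] E : ℤ) := by
    have e : x = Units.mk0 (q : E) (Nat.cast_ne_zero.mpr (Fact.out : q.Prime).ne_zero) := Units.ext hx
    rw [e]
    exact congrArg Multiplicative.toAdd (ordQ_natCast_self E)
  rw [ordQFun_eq] at h1
  obtain ⟨t, ht⟩ : Nat.card (resAut E).range ∣ resDeg E := by
    rw [← card_resField_aut (E := E)]
    exact Subgroup.card_subgroup_dvd_card _
  have h2 : Nat.card (inertia E) * Nat.card (resAut E).range = finrank ℚ_[q] E := by
    rw [← Subgroup.index_ker, ← IsGalois.card_aut_eq_finrank ℚ_[q] E]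
    exact (resAut E).ker.card_mul_index
  rw [← h2, ht, Nat.cast_mul, Nat.cast_mul] at h1
  refine ⟨(t : ℤ), mul_right_cancel₀ (Nat.cast_ne_zero.mpr
    (Nat.card_pos (α := (resAut E).range)).ne' : (Nat.card (resAut E).range : ℤ) ≠ 0) ?_⟩
  show _ = ordZ E x * _ * _
  rw [ordZ]
  linear_combination -h1

/-- Pulling back a coboundary along a descent. -/
theorem isCoboundary₂_zsmul_comap {G G₀ A B : Type*} [Group G] [Group G₀] [AddCommGroup A]
    [DistribMulAction G A] [AddCommGroup B] [DistribMulAction G₀ B] (π : G →* G₀) (ι : B →+ A)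
    (hι : ∀ (g : G) (x : B), g • ι x = ι (π g • x)) (c : G × G → A) (c₀ : G₀ × G₀ → B)
    (s : G₀ → B) (hdesc : (c - fun gh => ι (c₀ (π gh.1, π gh.2))) ∈ cobound₂ G A) (k : ℤ)
    {P : Subgroup G₀}
    (hk : IsCoboundary₂ fun x : P × P => k • (c₀ - dOne s) ((x.1 : G₀), (x.2 : G₀))) :
    IsCoboundary₂ fun x : P.comap π × P.comap π => (k • c) ((x.1 : G), (x.2 : G)) := by
  obtain ⟨b₁, hb₁⟩ := hdesc
  obtain ⟨b₂, hb₂⟩ := hk
  refine ⟨fun g => k • b₁ g + ι (b₂ ⟨π g, g.2⟩ + k • s (π g)), fun g h => ?_⟩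
  have e1 : k • c ((g : G), (h : G)) = k • ((g : G) • b₁ h - b₁ (g * h) + b₁ g) +
      k • ι (c₀ (π g, π h)) := by
    rw [← zsmul_add, hb₁ g h, Pi.sub_apply, sub_add_cancel]
  have e2 := hb₂ ⟨π g, g.2⟩ ⟨π h, h.2⟩
  simp only [Pi.sub_apply, dOne, Subgroup.smul_def] at e2
  have e3 : k • c₀ (π g, π h) =
      (π g • b₂ ⟨π h, h.2⟩ - b₂ ⟨π g * π h, mul_mem g.2 h.2⟩ + b₂ ⟨π g, g.2⟩) +
        k • (π g • s (π h) - s (π g * π h) + s (π g)) := by
    rw [show (π g • b₂ ⟨π h, h.2⟩ - b₂ ⟨π g * π h, mul_mem g.2 h.2⟩ + b₂ ⟨π g, g.2⟩) =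
      k • (c₀ (π g, π h) - (π g • s (π h) - s (π g * π h) + s (π g))) from e2, ← zsmul_add,
      sub_add_cancel]
  show g • (fun g : P.comap π => k • b₁ (g : G) + ι (b₂ ⟨π g, g.2⟩ + k • s (π g))) h - _ + _ =
    k • c ((g : G), (h : G))
  rw [e1, ← map_zsmul ι, e3]
  simp only [Subgroup.smul_def, Subgroup.coe_mul, map_mul, map_add, map_sub, map_zsmul, smul_add,
    zsmul_sub, hι, smul_comm (g : G) k]
  abel

variable (E) in
/-- **The local class formation.** -/
theorem exists_classFormation (p : ℕ) [hp : Fact p.Prime] :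
    ∃ u : NormCocycle (E ≃ₐ[ℚ_[q]] E) (Additive Eˣ), IsClassFormation p u := by
  classical
  haveI : IsGalois ℚ_[q] E := ⟨⟩
  set n := Nat.card (E ≃ₐ[ℚ_[q]] E) with hn
  have hn0 : 0 < n := Nat.card_pos
  rcases (show n = 1 ∨ 1 < n by omega) with h1 | h1
  · haveI : Subsingleton (E ≃ₐ[ℚ_[q]] E) := Finite.card_le_one_iff_subsingleton.mp (hn ▸ h1).le
    refine ⟨⟨0, fun g h j => by simp, fun g => rfl⟩,
      (stepAxioms p E).isClassFormation _ fun P k _ => ?_⟩
    rw [Subgroup.eq_bot_of_subsingleton (P : Subgroup (E ≃ₐ[ℚ_[q]] E)), Subgroup.card_bot]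
    exact one_dvd k
  haveI : NeZero n := ⟨hn0.ne'⟩
  have hq1 : 1 < q := (Fact.out : q.Prime).one_lt
  haveI : NeZero (q ^ n - 1) := ⟨by have := Nat.one_lt_pow hn0.ne' hq1; omega⟩
  haveI : NeZero ((q ^ n - 1 : ℕ) : PadicAlgCl q) := ⟨Nat.cast_ne_zero.mpr (NeZero.ne _)⟩
  obtain ⟨ζ, hζ⟩ := HasEnoughRootsOfUnity.exists_primitiveRoot (PadicAlgCl q) (q ^ n - 1)
  set U := IntermediateField.adjoin ℚ_[q] ({ζ} : Set (PadicAlgCl q)) with hU
  haveI : FiniteDimensional ℚ_[q] U :=
    IntermediateField.adjoin.finiteDimensional (Algebra.IsIntegral.isIntegral ζ)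
  haveI : Normal ℚ_[q] U := normal_adjoin_root hζ
  obtain ⟨eU⟩ := exists_mulEquiv_gal_adjoin_root hn0 hζ hU
  set F := E ⊔ U with hF
  haveI : FiniteDimensional ℚ_[q] F := IntermediateField.finiteDimensional_sup _ _
  haveI : Normal ℚ_[q] F := IntermediateField.normal_sup _ _ _ _
  haveI : IsGalois ℚ_[q] F := ⟨⟩
  have hEF : E ≤ F := le_sup_left
  have hUF : U ≤ F := le_sup_right
  set π := restrHom hEF with hπdef
  have hπ : Function.Surjective π := restrHom_surjective hEF
  set χ : (F ≃ₐ[ℚ_[q]] F) →* Multiplicative (ZMod n) := eU.toMonoidHom.comp (restrHom hUF) with hχdef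
  have hχker : ∀ σ, σ ∈ χ.ker ↔ restrHom hUF σ = 1 := fun σ => by
    rw [MonoidHom.mem_ker, hχdef, MonoidHom.comp_apply]
    exact eU.map_eq_one_iff
  have hinert : inertia F ≤ χ.ker := fun σ hσ => by
    rw [hχker]
    refine AlgEquiv.ext fun x => (IntermediateField.inclusion hUF).injective ?_
    show IntermediateField.inclusion hUF (restrHom hUF σ x) = IntermediateField.inclusion hUF x
    rw [inclusion_restrHom]
    have hζU : ζ ∈ U := IntermediateField.subset_adjoin _ _ (Set.mem_singleton ζ)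
    set z : F := IntermediateField.inclusion hUF ⟨ζ, hζU⟩ with hz
    have hσz : σ z = z := by
      refine Subtype.ext (eq_of_norm_sub_lt_one (NeZero.ne (q ^ n - 1))
        (not_dvd_pow_sub_one hn0) ?_ hζ.pow_eq_one ?_)
      · have e : σ z ^ (q ^ n - 1) = 1 := by
          rw [← map_pow, show z ^ (q ^ n - 1) = 1 from Subtype.ext hζ.pow_eq_one, map_one]
        exact congrArg Subtype.val e
      · exact mem_inertia.mp hσ z (norm_root_one (NeZero.ne _) hζ.pow_eq_one).le
    have hle : U ≤ IntermediateField.lift (IntermediateField.fixedField (Subgroup.zpowers σ)) := by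
      refine IntermediateField.adjoin_le_iff.mpr fun y hy => ?_
      rw [Set.mem_singleton_iff.mp hy]
      refine (IntermediateField.mem_lift z).mpr ((IntermediateField.mem_fixedField_iff _ z).mpr
        fun g hg => ?_)
      exact MulAction.mem_stabilizer_iff.mp
        (Subgroup.zpowers_le.mpr (MulAction.mem_stabilizer_iff.mpr hσz) hg)
    have hx := (IntermediateField.mem_lift (IntermediateField.inclusion hUF x)).mp (hle x.2)
    rw [IntermediateField.mem_fixedField_iff] at hx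
    exact hx σ (Subgroup.mem_zpowers σ)
  have hχsurj : Function.Surjective χ := eU.surjective.comp (restrHom_surjective hUF)
  set N := π.ker with hN
  have hNN' : N ⊓ χ.ker = ⊥ := by
    refine eq_bot_iff.mpr fun σ hσ => ?_
    rw [Subgroup.mem_bot]
    refine AlgEquiv.ext fun x => ?_
    have hfix : F ≤ IntermediateField.lift (IntermediateField.fixedField (Subgroup.zpowers σ)) := by
      have hmem : ∀ (V : IntermediateField ℚ_[q] (PadicAlgCl q)) [Normal ℚ_[q] V] (hV : V ≤ F),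
          restrHom hV σ = 1 →
          V ≤ IntermediateField.lift (IntermediateField.fixedField (Subgroup.zpowers σ)) := by
        intro V _ hV h y hy
        refine (IntermediateField.mem_lift (IntermediateField.inclusion hV ⟨y, hy⟩)).mpr
          ((IntermediateField.mem_fixedField_iff _ _).mpr fun g hg => ?_)
        refine MulAction.mem_stabilizer_iff.mp
          (Subgroup.zpowers_le.mpr (MulAction.mem_stabilizer_iff.mpr ?_) hg)
        show σ _ = _
        rw [← inclusion_restrHom hV, h, AlgEquiv.one_apply]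
      exact sup_le (hmem E hEF (MonoidHom.mem_ker.mp hσ.1)) (hmem U hUF ((hχker σ).mp hσ.2))
    have hx := (IntermediateField.mem_lift x).mp (hfix x.2)
    rw [IntermediateField.mem_fixedField_iff] at hx
    exact hx σ (Subgroup.mem_zpowers σ)
  -- the element
  have hq0 : (q : F) ≠ 0 := Nat.cast_ne_zero.mpr (Fact.out : q.Prime).ne_zero
  set xq : Fˣ := Units.mk0 (q : F) hq0 with hxq
  have hxfix : ∀ σ : F ≃ₐ[ℚ_[q]] F, σ • (Additive.ofMul xq) = Additive.ofMul xq := fun σ =>
    Additive.toMul.injective (Units.ext (map_natCast σ q))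
  set c := carryN χ (Additive.ofMul xq) with hcdef
  have hc : IsCocycle₂ c := isCocycle₂_carryN hxfix
  obtain ⟨γ, hγ⟩ := hχsurj (Multiplicative.ofAdd 1)
  haveI : Fintype N := Fintype.ofFinite _
  have hres : IsCoboundary₂ fun x : N × N => c ((x.1 : F ≃ₐ[ℚ_[q]] F), (x.2 : F ≃ₐ[ℚ_[q]] F)) := by
    have hcard : Nat.card (⊤ : Subgroup (F ≃ₐ[ℚ_[q]] F)) = Nat.card N * n := by
      rw [Subgroup.card_top, hn, ← Subgroup.card_top (G := E ≃ₐ[ℚ_[q]] E),
        ← MonoidHom.range_eq_top.mpr hπ, ← Subgroup.index_ker]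
      exact π.ker.card_mul_index.symm
    obtain ⟨y, hy⟩ := exists_normHom_eq_of_base_change (⊤ : Subgroup (F ≃ₐ[ℚ_[q]] F)) N χ.ker
      le_top (fun g _ => by rw [hN, MonoidHom.mem_ker, map_pow, hn, pow_card_eq_one'])
      (fun g _ => by
        rw [MonoidHom.mem_ker, map_pow, ← ofAdd_toAdd (χ g), ← ofAdd_nsmul, nsmul_eq_mul,
          ZMod.natCast_self, zero_mul, ofAdd_zero])
      hNN' (inf_le_right.trans hinert) hcard (x := xq)
      (fun h => congrArg Additive.toMul (hxfix _))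
    have hy' : normSum N (Additive Fˣ) (Additive.ofMul y) = Additive.ofMul xq := by
      refine Additive.toMul.injective ?_
      rw [normSum, toMul_sum, toMul_ofMul, ← hy]
      rfl
    rw [hcdef, ← hy']
    exact isCoboundary₂_carryN_normSum hNN' _
  obtain ⟨c₀, hc₀, hdesc⟩ := exists_descend₂ π hπ (unitsMap hEF) (unitsMap_injective hEF)
    (smul_unitsMap hEF) (exists_unitsMap_eq hEF) (h1Zero_units π.ker) c hc hres
  -- normalise
  let s : (E ≃ₐ[ℚ_[q]] E) → Additive Eˣ := fun _ => c₀ (1, 1)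
  let u : NormCocycle (E ≃ₐ[ℚ_[q]] E) (Additive Eˣ) :=
    ⟨c₀ - dOne s, isCocycle₂_sub hc₀ (isCocycle₂_dOne s), fun g => by
      show c₀ (1, g) - ((1 : E ≃ₐ[ℚ_[q]] E) • s g - s (1 * g) + s 1) = 0
      have e := hc₀ 1 1 g
      rw [one_mul, one_mul, one_smul, add_right_inj] at e
      simp only [s, one_smul, one_mul, sub_self, zero_add, e]⟩
  refine ⟨u, (stepAxioms p E).isClassFormation u fun P k hk => ?_⟩
  set P' := (P : Subgroup (E ≃ₐ[ℚ_[q]] E)).comap π with hP'
  have hkc : IsCoboundary₂ fun x : P' × P' =>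
      (k • c) ((x.1 : F ≃ₐ[ℚ_[q]] F), (x.2 : F ≃ₐ[ℚ_[q]] F)) := by
    exact isCoboundary₂_zsmul_comap π (unitsMap hEF) (smul_unitsMap hEF) _ c₀ s hdesc k
      hk
  have hm := index_nsmul_isCoboundary₂ P' (k • c) (isCocycle₂_zsmul hc k) hkc
  set m := P'.index
  have hmidx : m = (P : Subgroup (E ≃ₐ[ℚ_[q]] E)).index :=
    Subgroup.index_comap_of_surjective _ hπ
  rw [hcdef, ← natCast_zsmul, smul_smul, zsmul_carryN] at hm
  obtain ⟨w, hwfix, hw⟩ := exists_eq_norm_of_carryN h1 hγ (h1Zero_units χ.ker) hm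
  set v := ordZ F xq
  have hv : v ∣ (Nat.card (inertia F) : ℤ) := ordZ_natCast_dvd_card_inertia xq rfl
  have hv0 : v ≠ 0 := fun h0 => by
    rw [h0, zero_dvd_iff, Nat.cast_eq_zero] at hv
    exact Nat.card_pos.ne' hv
  have hmul : ((m : ℤ) * k) * v = (n : ℤ) * ordZ F w.toMul := by
    have e := congrArg (fun z : Additive Fˣ => ord F z.toMul) hw
    simp only [toMul_zsmul, toMul_sum, map_zpow, map_prod, toMul_ofMul] at e
    have e' : ∀ i : ℕ, ord F (γ ^ i • w).toMul = ord F w.toMul := fun i => ord_smul_unit _ _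
    simp only [e', Finset.prod_const, Finset.card_range] at e
    have e2 := congrArg Multiplicative.toAdd e
    rw [toAdd_zpow, toAdd_pow, nsmul_eq_mul, smul_eq_mul] at e2
    exact e2
  obtain ⟨t, ht⟩ : (Nat.card (inertia F) : ℤ) ∣ ordZ F w.toMul := by
    have h := card_inf_inertia_dvd_ordZ χ.ker (x := w.toMul)
      (fun g => congrArg Additive.toMul (hwfix g g.2))
    rwa [inf_eq_right.mpr hinert] at h
  obtain ⟨s', hs'⟩ := hv
  have hdvd : (n : ℤ) ∣ (m : ℤ) * k :=
    ⟨s' * t, mul_right_cancel₀ hv0 (by rw [hmul, ht, hs']; ring)⟩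
  have hP : (Nat.card (P : Subgroup (E ≃ₐ[ℚ_[q]] E)) : ℤ) ∣ (m : ℤ) * k :=
    (Int.natCast_dvd_natCast.mpr (hn ▸ Subgroup.card_subgroup_dvd_card _)).trans hdvd
  refine (Int.isCoprime_iff_nat_coprime.mpr ?_).dvd_of_dvd_mul_left hP
  obtain ⟨a, ha⟩ := IsPGroup.iff_card.mp P.isPGroup'
  rw [Int.natAbs_natCast, Int.natAbs_natCast, ha, hmidx]
  exact Nat.Coprime.pow_left _ (hp.out.coprime_iff_not_dvd.mpr P.not_dvd_index)

end Fermat.Agent.CFT.LocalClass
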