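import Fermat.Agent.CFT.Idele.Bridge
import Fermat.Agent.CFT.Idele.Step
import Fermat.Agent.CFT.Local.Unramified
import Fermat.Agent.CFT.Coh.H2

/-!
# The class field axioms of a local field

For a normal `E/ℚ_q`, a step `K < H` of index `p` in the Galois group: norm one elements are
`g b / b` by Hilbert 90, and the units have Herbrand quotient one, so invariants modulo norms
have order `p`.
-/

set_option autoImplicit false
set_option linter.unusedSectionVars false
set_option linter.style.haveILetI false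

noncomputable section

namespace Fermat.Agent.CFT.LocalClass

open groupCohomology Fermat.Agent.CFT Fermat.Agent.CFT.Local Fermat.Agent.CFT.Idele

section General

variable {p : ℕ} [hp : Fact p.Prime] {G : Type*} [Group G] [Finite G] {A : Type*} [AddCommGroup A]
  [DistribMulAction G A]

/-- An element of norm zero of a step is `g b - b` when `H¹` of the big group vanishes. -/
theorem exists_sub_eq_of_h1Zero {H K : Subgroup G} {g : G} (hs : IsStep p H K g) [Finite H]
    (hH : H1Zero H A) (a : A) (ha : ∀ k ∈ K, k • a = a) (hN : stepNorm p g a = 0) :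
    ∃ b : A, (∀ k ∈ K, k • b = b) ∧ g • b - b = a := by
  obtain ⟨χ, hχ, hker, hg⟩ := hs.exists_char
  set γ : H := ⟨g, hs.mem⟩
  let i : H → ℕ := fun h => (Multiplicative.toAdd (χ h)).val
  let P : ℕ → A := fun m => ∑ j ∈ Finset.range m, g ^ j • a
  have hP : ∀ m m', P (m + m') = P m + g ^ m • P m' := fun m m' => by
    simp only [P, Finset.sum_range_add, Finset.smul_sum, smul_smul, ← pow_add]
  have hPp : P p = 0 := hN
  have hgp : g ^ p • a = a := ha _ hs.pow_mem
  have hper : ∀ m, P (p + m) = P m := fun m => by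
    rw [hP, hPp, zero_add]
    simp only [P, Finset.smul_sum, smul_smul, ← pow_add]
    exact Finset.sum_congr rfl fun j _ => by rw [add_comm p j, pow_add, mul_smul, hgp]
  have hact : ∀ (x : H) (m : ℕ), x • P m = g ^ i x • P m := fun x m => by
    simp only [P, Finset.smul_sum]
    refine Finset.sum_congr rfl fun j _ => ?_
    have hr : (γ ^ j)⁻¹ * ((γ ^ i x)⁻¹ * x) * γ ^ j ∈ χ.ker := by
      have h0 : (γ ^ i x)⁻¹ * x ∈ χ.ker := by
        rw [MonoidHom.mem_ker, map_mul, map_inv, map_pow, hg, ← ofAdd_nsmul, nsmul_one,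
          ZMod.natCast_zmod_val, ofAdd_toAdd, inv_mul_cancel]
      simpa using (inferInstance : χ.ker.Normal).conj_mem _ h0 (γ ^ j)⁻¹
    rw [hker, Subgroup.mem_subgroupOf] at hr
    conv_rhs => rw [← ha _ hr]
    simp only [smul_smul, Subgroup.smul_def]
    congr 1
    simp [mul_assoc, γ]
  obtain ⟨b, hb⟩ := hH (fun h => P (i h)) fun x y => by
    show P (i (x * y)) = x • P (i y) + P (i x)
    rw [hact, show i (x * y) = (i x + i y) % p by simp only [i, map_mul, toAdd_mul, ZMod.val_add],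
      add_comm (g ^ i x • P (i y)), ← hP]
    rcases Nat.lt_or_ge (i x + i y) p with hlt | hge
    · rw [Nat.mod_eq_of_lt hlt]
    · have hx : i x < p := ZMod.val_lt _
      have hy : i y < p := ZMod.val_lt _
      rw [Nat.mod_eq_sub_mod hge, Nat.mod_eq_of_lt (by omega)]
      conv_rhs => rw [show i x + i y = p + (i x + i y - p) by omega, hper]
  refine ⟨b, fun k hk => ?_, ?_⟩
  · have hk' : i ⟨k, hs.le hk⟩ = 0 := by
      have : (⟨k, hs.le hk⟩ : H) ∈ χ.ker := by rw [hker]; exact Subgroup.mem_subgroupOf.mpr hk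
      simp [i, MonoidHom.mem_ker.mp this]
    have e := hb ⟨k, hs.le hk⟩
    simp only [hk', P, Finset.sum_range_zero, Subgroup.smul_def] at e
    exact sub_eq_zero.mp e
  · have hγ : i γ = 1 := by
      haveI : Fact (1 < p) := ⟨hp.out.one_lt⟩
      simp only [i, hg, toAdd_ofAdd, ZMod.val_one]
    have e := hb γ
    simp only [hγ, P, Finset.sum_range_one, pow_zero, one_smul, Subgroup.smul_def] at e
    exact e

/-- The index of the norms and units, through the valuation. -/
theorem index_range_sup_ker {M : Type*} [CommGroup M] (o : M →* Multiplicative ℤ) (N : M →* M)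
    (hNo : ∀ x, o (N x) = o x ^ p) (x₀ : M) (hx₀ : o x₀ ≠ 1) :
    (N.range ⊔ o.ker).index = p := by
  obtain ⟨e, he⟩ := Int.subgroup_cyclic o.range.toAddSubgroup'
  have hmem : ∀ n : ℤ, Multiplicative.ofAdd n ∈ o.range ↔ e ∣ n := fun n => by
    have : n ∈ o.range.toAddSubgroup' ↔ e ∣ n := by
      rw [he, AddSubgroup.mem_closure_singleton]
      exact ⟨fun ⟨k, hk⟩ => ⟨k, by rw [← hk, smul_eq_mul, mul_comm]⟩,
        fun ⟨k, hk⟩ => ⟨k, by rw [hk, smul_eq_mul, mul_comm]⟩⟩
    exact this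
  have he0 : e ≠ 0 := by
    rintro rfl
    have h := (hmem (Multiplicative.toAdd (o x₀))).mp ⟨x₀, (ofAdd_toAdd _).symm⟩
    exact hx₀ (Multiplicative.toAdd.injective (zero_dvd_iff.mp h))
  obtain ⟨y₁, hy₁⟩ := (hmem e).mpr dvd_rfl
  let φ : M →* Multiplicative (ZMod p) :=
    { toFun := fun x => Multiplicative.ofAdd ((Multiplicative.toAdd (o x) / e : ℤ) : ZMod p)
      map_one' := by simp
      map_mul' := fun x y => by
        rw [map_mul, toAdd_mul, Int.add_ediv_of_dvd_left ((hmem _).mp ⟨x, by simp⟩),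
          Int.cast_add, ofAdd_add] }
  have hsurj : Function.Surjective φ := fun z => ⟨y₁ ^ (Multiplicative.toAdd z).val, by
    have h1 : φ y₁ = Multiplicative.ofAdd 1 := by
      show Multiplicative.ofAdd _ = _
      rw [hy₁, toAdd_ofAdd, Int.ediv_self he0, Int.cast_one]
    rw [map_pow, h1, ← ofAdd_nsmul, nsmul_one, ZMod.natCast_zmod_val, ofAdd_toAdd]⟩
  have hker : N.range ⊔ o.ker = φ.ker := by
    refine le_antisymm (sup_le ?_ ?_) fun x hx => ?_
    · rintro _ ⟨x, rfl⟩
      show Multiplicative.ofAdd _ = 1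
      rw [hNo, toAdd_pow, nsmul_eq_mul, Int.mul_ediv_assoc _ ((hmem _).mp ⟨x, by simp⟩),
        Int.cast_mul, Int.cast_natCast, ZMod.natCast_self, zero_mul, ofAdd_zero]
    · intro x hx
      show Multiplicative.ofAdd _ = 1
      rw [MonoidHom.mem_ker.mp hx, toAdd_one, Int.zero_ediv, Int.cast_zero, ofAdd_zero]
    · have hx' : ((Multiplicative.toAdd (o x) / e : ℤ) : ZMod p) = 0 :=
        Multiplicative.ofAdd.injective (MonoidHom.mem_ker.mp hx)
      obtain ⟨m, hm⟩ := (ZMod.intCast_zmod_eq_zero_iff_dvd _ p).mp hx'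
      have hox : Multiplicative.toAdd (o x) = (p : ℤ) * (m * e) := by
        rw [← Int.ediv_mul_cancel ((hmem _).mp ⟨x, (ofAdd_toAdd (o x)).symm⟩), hm]; ring
      refine Subgroup.mem_sup.mpr ⟨N (y₁ ^ m), ⟨_, rfl⟩, (N (y₁ ^ m))⁻¹ * x, ?_,
        mul_inv_cancel_left _ _⟩
      rw [MonoidHom.mem_ker, map_mul, map_inv, hNo, map_zpow, hy₁]
      apply Multiplicative.toAdd.injective
      simp only [toAdd_mul, toAdd_inv, toAdd_pow, toAdd_zpow, toAdd_ofAdd, hox, toAdd_one,
        nsmul_eq_mul, smul_eq_mul]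
      ring
  rw [hker, Subgroup.index_ker, MonoidHom.range_eq_top.mpr hsurj, Subgroup.card_top,
    Nat.card_congr Multiplicative.toAdd, Nat.card_zmod]

theorem step_of_isStep' {H K : Subgroup G} {g : G} (hs : IsStep p H K g) [Finite H] :
    Idele.Step p H K g :=
  Idele.Step.of_isPGroup hs.le hs.mem hs.notMem hs.isPGroup hs.relIndex

end General

variable {p : ℕ} [hp : Fact p.Prime] {q : ℕ} [Fact q.Prime]
  {E : IntermediateField ℚ_[q] (PadicAlgCl q)} [FiniteDimensional ℚ_[q] E] [Normal ℚ_[q] E]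

variable {H K : Subgroup (E ≃ₐ[ℚ_[q]] E)} {g : E ≃ₐ[ℚ_[q]] E}

theorem toMul_stepNorm (b : Additive Eˣ) :
    ((stepNorm p g b).toMul : Eˣ) = ∏ i ∈ Finset.range p, g ^ i • b.toMul := by
  rw [stepNorm, toMul_sum]
  rfl

/-- Invariants modulo norms of a step have order `p`. -/
theorem ind0_step (hs : IsStep p H K g) :
    ind0 (dStep Eˣ (step_of_isStep' hs)) (nStep Eˣ (step_of_isStep' hs)) = p := by
  classical
  set st := step_of_isStep' hs
  set d := dStep Eˣ st with hd_def
  set N := nStep Eˣ st with hN_def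
  obtain ⟨Λ⟩ := exists_normalLattice (E := E)
  set D := deepUnits Λ.good 0 with hDdef
  have hDst : ∀ t : E ≃ₐ[ℚ_[q]] E, ∀ u ∈ D, t • u ∈ D := fun t u hu => Λ.smul_mem_deepUnits hu
  have hOK : ∀ (S : Subgroup (E ≃ₐ[ℚ_[q]] E)) [Fintype S], NormOK S D := fun S _ =>
    ⟨fun x hx hfix => Λ.exists_normHom_eq S hx hfix, fun x hx hN => Λ.exists_augHom_eq S hx hN⟩
  haveI : Fintype H := Fintype.ofFinite H
  haveI : Fintype K := Fintype.ofFinite K
  set B := subFixed K D
  set U := subFixed K (unitGroup E)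
  have hUst : ∀ t : E ≃ₐ[ℚ_[q]] E, ∀ u ∈ unitGroup E, t • u ∈ unitGroup E := fun t u hu =>
    (smul_mem_unitGroup_iff t u).2 hu
  obtain ⟨hB0, hB1⟩ := ind0Sub_of_normOK st hDst (hOK H) (hOK K)
  obtain ⟨hU01, hU0⟩ := ind0Sub_eq_of_triv d N (map_dStep_le st hUst) (map_nStep_le st hUst)
    (dStep_nStep st) (nStep_dStep st) (B := B)
    (fun x hx => deepUnits_le_unitGroup Λ.good hx) (map_dStep_le st hDst) (map_nStep_le st hDst)
    (by
      have h := relIndex_deepUnits_ne_zero Λ.good 0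
      intro h0
      refine h (Subgroup.relIndex_eq_zero_of_le_right
        (Subgroup.map_comap_le (fixedBy K Eˣ).subtype (unitGroup E)) ?_)
      rwa [← Subgroup.relIndex_comap])
    hB0 hB1
  -- Hilbert 90
  have hH90 : ind0 N d = 1 := by
    rw [ind0, Subgroup.relIndex_eq_one]
    intro x hx
    obtain ⟨b, hb, hgb⟩ := exists_sub_eq_of_h1Zero hs (A := Additive Eˣ) (h1Zero_units H)
      (Additive.ofMul (x : Eˣ)) (fun k hk => congrArg Additive.ofMul (x.2 k hk))
      (Additive.toMul.injective (by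
        rw [toMul_stepNorm]
        exact congrArg Subtype.val (MonoidHom.mem_ker.1 hx)))
    exact ⟨⟨b.toMul, fun k hk => congrArg Additive.toMul (hb k hk)⟩,
      Subtype.ext (congrArg Additive.toMul hgb)⟩
  -- the valuation
  set o : fixedBy K Eˣ →* Multiplicative ℤ := (ord E).comp (fixedBy K Eˣ).subtype with hodef
  have hUker : U = o.ker := by
    ext x
    rw [mem_subFixed, MonoidHom.mem_ker, ← ord_eq_one_iff]
    rfl
  have hdo : ∀ x, o (d x) = 1 := fun x => by
    show ord E (g • (x : Eˣ) / (x : Eˣ)) = 1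
    rw [map_div, ord_smul_unit, div_self']
  have hNo : ∀ x, o (N x) = o x ^ p := fun x => by
    show ord E (∏ i ∈ Finset.range p, g ^ i • (x : Eˣ)) = _
    simp only [map_prod, ord_smul_unit, Finset.prod_const, Finset.card_range]
    rfl
  have hQN : ind0Quot N d U = 1 := by
    rw [ind0Quot, Subgroup.relIndex_eq_one]
    intro x hx
    refine Subgroup.mem_sup_right ?_
    rw [hUker] at hx ⊢
    have h : o x ^ p = 1 := by rw [← hNo]; exact hx
    exact (pow_eq_one_iff_left hp.out.ne_zero).mp h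
  have hQd : ind0Quot d N U = p := by
    have htop : U.comap d = ⊤ := eq_top_iff.mpr fun x _ => by
      rw [hUker]; exact hdo x
    rw [ind0Quot, htop, Subgroup.relIndex_top_right, hUker]
    obtain ⟨π, hπ⟩ := ord_surjective E (Multiplicative.ofAdd 1)
    set x₀ : fixedBy K Eˣ := ⟨_, prod_smul_mem_fixedBy K π⟩ with hx₀
    have hox₀ : Multiplicative.toAdd (o x₀) = (Fintype.card K : ℤ) := by
      show Multiplicative.toAdd (ord E (∏ k : K, (k : E ≃ₐ[ℚ_[q]] E) • π)) = _
      simp only [map_prod, ord_smul_unit, Finset.prod_const, Finset.card_univ, toAdd_pow, hπ,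
        toAdd_ofAdd, nsmul_eq_mul, mul_one]
    exact index_range_sup_ker o N hNo x₀ (fun h => Fintype.card_ne_zero (α := K) (by
      have h' := congrArg Multiplicative.toAdd h
      rw [hox₀, toAdd_one] at h'
      exact_mod_cast h'))
  have h := herbrand_mul d N (dStep_nStep st) (nStep_dStep st) U (map_dStep_le st hUst)
    (map_nStep_le st hUst)
  rw [hQd, hH90, hQN, hU01, one_mul, mul_one] at h
  apply mul_left_cancel₀ hU0
  linear_combination -h

variable (p E) in
/-- The class field axioms. -/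
theorem stepAxioms : StepAxioms p (E ≃ₐ[ℚ_[q]] E) (Additive Eˣ) := by
  refine ⟨fun H K g hs a ha hN => exists_sub_eq_of_h1Zero hs (h1Zero_units H) a ha hN,
    fun H K g hs => ?_⟩
  classical
  set st := step_of_isStep' hs
  set d := dStep Eˣ st
  set N := nStep Eˣ st
  have hidx : N.range.relIndex d.ker = p := ind0_step hs
  have hne : ¬ d.ker ≤ N.range := fun hle => hp.out.one_lt.ne' (by
    rw [← hidx, Subgroup.relIndex_eq_one.mpr hle])
  obtain ⟨x₀, hx₀, hx₀N⟩ := SetLike.not_le_iff_exists.mp hne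
  have hfix : ∀ x : fixedBy K Eˣ, x ∈ d.ker → (x : Eˣ) ∈ fixedBy H Eˣ := fun x hx =>
    st.mem_fixedBy_iff.2 ⟨x.2, (mem_ker_dStep st).1 hx⟩
  refine ⟨Additive.ofMul (x₀ : Eˣ), fun h hh => congrArg Additive.ofMul (hfix x₀ hx₀ h hh),
    fun x hx => ?_⟩
  have hxH : x.toMul ∈ fixedBy H Eˣ := fun h hh => congrArg Additive.toMul (hx h hh)
  set x' : fixedBy K Eˣ := ⟨x.toMul, fixedBy_anti st.le hxH⟩
  have hx' : x' ∈ d.ker := (mem_ker_dStep st).2 (st.mem_fixedBy_iff.1 hxH).2
  haveI : (N.range.subgroupOf d.ker).Normal := inferInstance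
  have hcard : Nat.card (d.ker ⧸ N.range.subgroupOf d.ker) = p := hidx
  haveI : IsCyclic (d.ker ⧸ N.range.subgroupOf d.ker) := isCyclic_of_prime_card hcard
  have hgen : (QuotientGroup.mk ⟨x', hx'⟩ : d.ker ⧸ N.range.subgroupOf d.ker) ∈
      Subgroup.zpowers (QuotientGroup.mk ⟨x₀, hx₀⟩) :=
    mem_zpowers_of_prime_card hcard fun h => hx₀N (Subgroup.mem_subgroupOf.mp
      ((QuotientGroup.eq_one_iff _).mp h))
  obtain ⟨m, hm⟩ := hgen
  obtain ⟨b, hb⟩ := Subgroup.mem_subgroupOf.mp (QuotientGroup.eq.mp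
    ((QuotientGroup.mk_zpow _ _ m).trans hm))
  refine ⟨m, Additive.ofMul (b : Eˣ), fun k hk => congrArg Additive.ofMul (b.2 k hk),
    Additive.toMul.injective ?_⟩
  rw [toMul_add, toMul_zsmul, toMul_stepNorm, toMul_ofMul, toMul_ofMul]
  have e := congrArg (fun z : fixedBy K Eˣ => (z : Eˣ)) hb
  rw [nStep_coe] at e
  rw [e]
  show x.toMul = (x₀ : Eˣ) ^ m * (((x₀ : Eˣ) ^ m)⁻¹ * x.toMul)
  rw [mul_inv_cancel_left]

end Fermat.Agent.CFT.LocalClass
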